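/- helper6690 `Fermat/Agent/S25/ChartAtlas.lean`, copied verbatim (namespace renamed). -/
import Mathlib
import Fermat.Prelude.Def_AlgebraicGeometry_RelativePicardFunctor

/-!
# S25 package C3 (bridge part): the affine atlas of a base change

Let `c : C ⟶ Spec R`, and let `j : Spec A ⟶ C` be an affine chart over `R`
(`j ≫ c = Spec.map (algebraMap R A)`).  For every `R`-algebra `B` the base change
`pullback c (Spec B ⟶ Spec R)` has the affine chart `Spec (A ⊗[R] B)`:

* `chartMap` : `Spec (A ⊗[R] B) ⟶ pullback c t`, an open immersion, with the expected projections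
  (`chartMap_fst`, `chartMap_snd`) and range (`range_chartMap`, `chartMap_opensRange`);
* `chartMap_baseChange` : compatibility with base change `B → B'`;
* `chartMap_restrict` : compatibility with a smaller chart `Spec A' ⟶ Spec A ⟶ C`;
* `iUnion_range_chartMap` : charts covering `C` give charts covering the pullback;
* `rigSection_eq` : the rigidifying section (Prelude `RelPicard.rigSection`) factors through the
  chart containing the base point, as `Spec` of `e ⊗ id : A ⊗[R] B → B`.
-/

set_option autoImplicit false

universe u

open CategoryTheory CategoryTheory.Limits AlgebraicGeometry TensorProduct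

namespace Fermat.Agent.S25.DICT.H5771.ChartAtlas

noncomputable section

variable {R : Type u} [CommRing R] {C : Scheme.{u}} (c : C ⟶ Spec (CommRingCat.of R))
  (A : Type u) [CommRing A] [Algebra R A] (j : Spec (CommRingCat.of A) ⟶ C)
  (hj : j ≫ c = Spec.map (CommRingCat.ofHom (algebraMap R A)))
  (B : Type u) [CommRing B] [Algebra R B]

/-- The structure map `Spec B ⟶ Spec R`. -/
abbrev baseMap : Spec (CommRingCat.of B) ⟶ Spec (CommRingCat.of R) :=
  Spec.map (CommRingCat.ofHom (algebraMap R B))

/-- The affine chart `Spec (A ⊗[R] B) ⟶ C ×_R Spec B` induced by an affine chart `Spec A ⟶ C`. -/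
def chartMap : Spec (CommRingCat.of (A ⊗[R] B)) ⟶ pullback c (baseMap (R := R) B) :=
  (pullbackSpecIso R A B).inv ≫ pullback.map _ _ _ _ j (𝟙 _) (𝟙 _)
    (by rw [Category.comp_id, hj]) (by simp)

instance [IsOpenImmersion j] : IsOpenImmersion (chartMap c A j hj B) := by
  unfold chartMap
  infer_instance

@[reassoc]
theorem chartMap_fst : chartMap c A j hj B ≫ pullback.fst _ _ =
    Spec.map (CommRingCat.ofHom Algebra.TensorProduct.includeLeftRingHom) ≫ j := by
  rw [chartMap, Category.assoc, pullback.map, pullback.lift_fst, pullbackSpecIso_inv_fst_assoc]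

@[reassoc]
theorem chartMap_snd : chartMap c A j hj B ≫ pullback.snd _ _ =
    Spec.map (CommRingCat.ofHom
      (Algebra.TensorProduct.includeRight : B →ₐ[R] A ⊗[R] B).toRingHom) := by
  rw [chartMap, Category.assoc, pullback.map, pullback.lift_snd, Category.comp_id,
    pullbackSpecIso_inv_snd]
  rfl

theorem range_chartMap : Set.range (chartMap c A j hj B).base =
    (pullback.fst c (baseMap (R := R) B)).base ⁻¹' Set.range j.base := by
  unfold chartMap
  rw [Scheme.Hom.comp_base, TopCat.coe_comp, Set.range_comp]
  simp [Scheme.Pullback.range_map]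

/-- Charts covering `C` induce charts covering the base change. -/
theorem iUnion_range_chartMap {ι : Type*} (A : ι → Type u) [∀ i, CommRing (A i)]
    [∀ i, Algebra R (A i)] (j : ∀ i, Spec (CommRingCat.of (A i)) ⟶ C)
    (hj : ∀ i, j i ≫ c = Spec.map (CommRingCat.ofHom (algebraMap R (A i))))
    (hcov : ⋃ i, Set.range (j i).base = Set.univ) :
    ⋃ i, Set.range (chartMap c (A i) (j i) (hj i) B).base = Set.univ := by
  simp only [range_chartMap]
  rw [← Set.preimage_iUnion, hcov, Set.preimage_univ]

section BaseChange

variable {B} (B' : Type u) [CommRing B'] [Algebra R B'] (φ : B →ₐ[R] B')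

/-- The map `C ×_R Spec B' ⟶ C ×_R Spec B` induced by `φ : B → B'`. -/
def baseChangeMap : pullback c (baseMap (R := R) B') ⟶ pullback c (baseMap (R := R) B) :=
  pullback.map _ _ _ _ (𝟙 C) (Spec.map (CommRingCat.ofHom φ.toRingHom)) (𝟙 _)
    (by simp)
    (by
      have h : (φ.toRingHom).comp (algebraMap R B) = algebraMap R B' := φ.comp_algebraMap
      rw [Category.comp_id, ← Spec.map_comp, ← CommRingCat.ofHom_comp, h])

theorem baseChangeMap_eq_baseChangeSnd
    (s : NeronModelInfra.SchemeHomOver (baseMap (R := R) B') (baseMap (R := R) B))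
    (hs : s.1 = Spec.map (CommRingCat.ofHom φ.toRingHom)) :
    baseChangeMap c B' φ = RelPicard.baseChangeSnd c s := by
  unfold baseChangeMap RelPicard.baseChangeSnd
  congr 1
  exact hs.symm

/-- Compatibility of the charts with base change `B → B'`. -/
theorem chartMap_baseChange :
    Spec.map (CommRingCat.ofHom (Algebra.TensorProduct.map (AlgHom.id R A) φ).toRingHom) ≫
      chartMap c A j hj B = chartMap c A j hj B' ≫ baseChangeMap c B' φ := by
  apply pullback.hom_ext
  · rw [Category.assoc, chartMap_fst, Category.assoc, baseChangeMap, pullback.map,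
      pullback.lift_fst, Category.comp_id, chartMap_fst, ← Category.assoc, ← Spec.map_comp,
      ← CommRingCat.ofHom_comp]
    congr 3
    ext a
    simp
  · rw [Category.assoc, chartMap_snd, Category.assoc, baseChangeMap, pullback.map,
      pullback.lift_snd, ← Category.assoc, chartMap_snd, ← Spec.map_comp, ← Spec.map_comp,
      ← CommRingCat.ofHom_comp, ← CommRingCat.ofHom_comp]
    congr 2

end BaseChange

section Restrict

variable (A' : Type u) [CommRing A'] [Algebra R A'] (r : A →ₐ[R] A')

include hj in
theorem restrict_comp_eq :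
    (Spec.map (CommRingCat.ofHom r.toRingHom) ≫ j) ≫ c =
      Spec.map (CommRingCat.ofHom (algebraMap R A')) := by
  have h : (r.toRingHom).comp (algebraMap R A) = algebraMap R A' := r.comp_algebraMap
  rw [Category.assoc, hj, ← Spec.map_comp, ← CommRingCat.ofHom_comp, h]

/-- Compatibility of the charts with passing to a smaller chart `Spec A' ⟶ Spec A ⟶ C`
(e.g. the intersection of two charts). -/
theorem chartMap_restrict :
    chartMap c A' (Spec.map (CommRingCat.ofHom r.toRingHom) ≫ j) (restrict_comp_eq c A j hj A' r) B
      = Spec.map (CommRingCat.ofHom (Algebra.TensorProduct.map r (AlgHom.id R B)).toRingHom) ≫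
        chartMap c A j hj B := by
  apply pullback.hom_ext
  · rw [chartMap_fst, Category.assoc, chartMap_fst, ← Category.assoc, ← Category.assoc,
      ← Spec.map_comp, ← Spec.map_comp, ← CommRingCat.ofHom_comp, ← CommRingCat.ofHom_comp]
    congr 3
  · rw [chartMap_snd, Category.assoc, chartMap_snd, ← Spec.map_comp, ← CommRingCat.ofHom_comp]
    congr 2
    ext b
    simp

end Restrict

section Section

variable (e : A →ₐ[R] R)

include hj in
/-- The `R`-point of `C` given by a retraction `e : A → R` of a chart is a section of `c`. -/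
theorem point_comp_eq :
    (Spec.map (CommRingCat.ofHom e.toRingHom) ≫ j) ≫ c = 𝟙 _ := by
  rw [Category.assoc, hj, ← Spec.map_comp, ← CommRingCat.ofHom_comp]
  have : (e.toRingHom).comp (algebraMap R A) = RingHom.id R := by
    ext x
    simp
  rw [this]
  exact Spec.map_id _

/-- The rigidifying section of the base change, in the chart containing the base point: it is
`Spec` of `A ⊗[R] B → B`, `a ⊗ b ↦ e a • b`. -/
theorem rigSection_eq
    (ε : NeronModelInfra.SchemeHomOver (𝟙 (Spec (CommRingCat.of R))) c)
    (hε : ε.1 = Spec.map (CommRingCat.ofHom e.toRingHom) ≫ j) :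
    RelPicard.rigSection c (baseMap (R := R) B) ε =
      Spec.map (CommRingCat.ofHom
        ((Algebra.TensorProduct.lid R B).toAlgHom.comp
          (Algebra.TensorProduct.map e (AlgHom.id R B))).toRingHom) ≫ chartMap c A j hj B := by
  unfold RelPicard.rigSection
  apply pullback.hom_ext
  · rw [pullback.lift_fst, Category.assoc, chartMap_fst, hε, ← Category.assoc, ← Category.assoc,
      ← Spec.map_comp, ← Spec.map_comp, ← CommRingCat.ofHom_comp, ← CommRingCat.ofHom_comp]
    congr 3
    ext a
    simp [Algebra.algebraMap_eq_smul_one]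
  · rw [pullback.lift_snd, Category.assoc, chartMap_snd, ← Spec.map_comp,
      ← CommRingCat.ofHom_comp]
    have : (((Algebra.TensorProduct.lid R B).toAlgHom.comp
        (Algebra.TensorProduct.map e (AlgHom.id R B))).toRingHom).comp
        (Algebra.TensorProduct.includeRight : B →ₐ[R] A ⊗[R] B).toRingHom = RingHom.id B := by
      ext b
      simp
    rw [this]
    exact (Spec.map_id _).symm

end Section

end

end Fermat.Agent.S25.DICT.H5771.ChartAtlas
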