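/-
S25 package DICT, leaf P1 `exists_familyAtlas` (helper5771).

The two-chart atlas of the family `C ×_k Spec R` attached to a frozen `Presentation c ε`:
* `FamAtlas.chartOfOpen hU e : Spec A ⟶ C` for an affine open `U` and `e : A ≃+* Γ(C, U)`;
* `FamAtlas.famChart' c A j hj R : Spec (R ⊗[k] A) ⟶ pullback c (Spec k ← Spec R)` (helper6690's
  `chartMap` composed with the swap), range, restriction, base change, rigidifying section;
* `FamAtlas.famAtlas pres R : Atlas (pullback c (tR k R)) (pres.𝒞.chart R)`;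
* `FamAtlas.famAtlas_bc₁/₂`, `FamAtlas.famAtlas_rig`;
* **`exists_familyAtlas`** (exact statement of leaf P1 of `DICT/Plan.lean`, origin/helper5590).
-/
import Fermat.Agent.S25.SchDefs
import Fermat.Agent.S25.DICT.H5771.ChartAtlas
import Fermat.Agent.S25.DICT.AtlasDefs

set_option autoImplicit false
set_option linter.style.haveILetI false

universe u

open CategoryTheory CategoryTheory.Limits AlgebraicGeometry AlgebraicGeometry.RelPicard
  NeronModelInfra TopologicalSpace Opposite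

open scoped TensorProduct

namespace Fermat.Agent.S25.DICT.H5771

namespace FamAtlas

section Generic

variable {k : Type u} [Field k] {C : Scheme.{u}} (c : C ⟶ Spec (CommRingCat.of k))

/-- The chart `Spec A ⟶ C` attached to an affine open `U` and a ring iso `e : A ≃+* Γ(C, U)`. -/
noncomputable def chartOfOpen {U : C.Opens} (hU : IsAffineOpen U) {A : Type u} [CommRing A]
    (e : A ≃+* Γ(C, U)) : Spec (CommRingCat.of A) ⟶ C :=
  Spec.map (CommRingCat.ofHom (e.symm : Γ(C, U) →+* A)) ≫ hU.fromSpec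

instance isIso_SpecMap_ringEquiv {A B : Type u} [CommRing A] [CommRing B] (e : A ≃+* B) :
    IsIso (Spec.map (CommRingCat.ofHom (e : A →+* B))) := by
  haveI : IsIso (CommRingCat.ofHom (e : A →+* B)) := e.toCommRingCatIso.isIso_hom
  infer_instance

instance {U : C.Opens} (hU : IsAffineOpen U) {A : Type u} [CommRing A]
    (e : A ≃+* Γ(C, U)) : IsOpenImmersion (chartOfOpen hU e) := by
  unfold chartOfOpen
  infer_instance

lemma range_chartOfOpen {U : C.Opens} (hU : IsAffineOpen U) {A : Type u} [CommRing A]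
    (e : A ≃+* Γ(C, U)) : Set.range (chartOfOpen hU e) = U := by
  unfold chartOfOpen
  rw [Scheme.Hom.comp_base, TopCat.coe_comp, Set.range_comp, Set.range_eq_univ.mpr, Set.image_univ]
  · exact hU.range_fromSpec
  · exact (Spec.map (CommRingCat.ofHom (e.symm : Γ(C, U) →+* A))).surjective

lemma chartOfOpen_comp {U : C.Opens} (hU : IsAffineOpen U) {A : Type u} [CommRing A]
    [Algebra k A] (e : A ≃+* Γ(C, U)) (halg : ∀ a : k, e (algebraMap k A a) = sectionAlg c U a) :
    chartOfOpen hU e ≫ c = Spec.map (CommRingCat.ofHom (algebraMap k A)) := by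
  unfold chartOfOpen
  have h1 : hU.fromSpec ≫ c = Spec.map (c.appLE ⊤ U le_top) ≫
      Spec.map (Scheme.ΓSpecIso (CommRingCat.of k)).inv := by
    have h := IsAffineOpen.SpecMap_appLE_fromSpec c
      (isAffineOpen_top (Spec (CommRingCat.of k))) hU le_top
    rw [IsAffineOpen.fromSpec_top, Scheme.isoSpec_Spec_inv] at h
    exact h.symm
  rw [Category.assoc, h1, ← Spec.map_comp, ← Spec.map_comp]
  congr 1
  ext a
  have := halg a
  simp only [sectionAlg] at this
  change e.symm ((CommRingCat.Hom.hom ((Scheme.ΓSpecIso (CommRingCat.of k)).inv ≫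
    Scheme.Hom.appLE c ⊤ U le_top)) a) = algebraMap k A a
  rw [← this]
  exact e.symm_apply_apply _

lemma chartOfOpen_restrict {U V : C.Opens} (hU : IsAffineOpen U) (hV : IsAffineOpen V)
    (hVU : V ≤ U) {A A' : Type u} [CommRing A] [CommRing A'] (e : A ≃+* Γ(C, U))
    (e' : A' ≃+* Γ(C, V)) (r : A →+* A')
    (hr : ∀ a, e' (r a) = C.presheaf.map (homOfLE hVU).op (e a)) :
    Spec.map (CommRingCat.ofHom r) ≫ chartOfOpen hU e = chartOfOpen hV e' := by
  unfold chartOfOpen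
  rw [← hU.map_fromSpec hV (homOfLE hVU).op, ← Category.assoc, ← Category.assoc,
    ← Spec.map_comp, ← Spec.map_comp]
  congr 2
  ext x
  change r (e.symm x) = e'.symm (C.presheaf.map (homOfLE hVU).op x)
  apply e'.injective
  rw [hr, e.apply_symm_apply, e'.apply_symm_apply]

section Fam

variable (A : Type u) [CommRing A] [Algebra k A] (j : Spec (CommRingCat.of A) ⟶ C)
  (hj : j ≫ c = Spec.map (CommRingCat.ofHom (algebraMap k A)))
  (R : Type u) [CommRing R] [Algebra k R]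

/-- The swap `A ⊗[k] R → R ⊗[k] A` in `CommRingCat`. -/
noncomputable def swapHom : CommRingCat.of (A ⊗[k] R) ⟶ CommRingCat.of (R ⊗[k] A) :=
  CommRingCat.ofHom ((Algebra.TensorProduct.comm k A R : A ⊗[k] R ≃+* R ⊗[k] A) :
    A ⊗[k] R →+* R ⊗[k] A)

instance : IsIso (Spec.map (swapHom (k := k) A R)) := by
  unfold swapHom
  infer_instance

/-- The chart `Spec (R ⊗[k] A) ⟶ C ×_k Spec R` of the family induced by a chart
`j : Spec A ⟶ C` of the curve (with `ChartAtlas.baseMap` as base map). -/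
noncomputable def famChart' :
    Spec (CommRingCat.of (R ⊗[k] A)) ⟶ pullback c (ChartAtlas.baseMap (R := k) R) :=
  Spec.map (swapHom A R) ≫ ChartAtlas.chartMap c A j hj R

instance [IsOpenImmersion j] : IsOpenImmersion (famChart' c A j hj R) := by
  unfold famChart'
  infer_instance

lemma range_famChart' : Set.range (famChart' c A j hj R) =
    (pullback.fst c (ChartAtlas.baseMap (R := k) R)) ⁻¹' Set.range j := by
  unfold famChart'
  rw [Scheme.Hom.comp_base, TopCat.coe_comp, Set.range_comp, Set.range_eq_univ.mpr,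
    Set.image_univ]
  · exact ChartAtlas.range_chartMap c A j hj R
  · exact (Spec.map (swapHom (k := k) A R)).surjective

lemma famChart'_congr {j j' : Spec (CommRingCat.of A) ⟶ C}
    (hj : j ≫ c = Spec.map (CommRingCat.ofHom (algebraMap k A)))
    (hj' : j' ≫ c = Spec.map (CommRingCat.ofHom (algebraMap k A))) (h : j = j') :
    famChart' c A j hj R = famChart' c A j' hj' R := by
  subst h; rfl

lemma famChart'_restrict (A' : Type u) [CommRing A'] [Algebra k A'] (r : A →ₐ[k] A') :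
    famChart' c A' (Spec.map (CommRingCat.ofHom r.toRingHom) ≫ j)
        (ChartAtlas.restrict_comp_eq c A j hj A' r) R =
      Spec.map (CommRingCat.ofHom
        (Algebra.TensorProduct.map (AlgHom.id R R) r : R ⊗[k] A →+* R ⊗[k] A')) ≫
        famChart' c A j hj R := by
  unfold famChart'
  rw [ChartAtlas.chartMap_restrict c A j hj R A' r, ← Category.assoc, ← Category.assoc,
    ← Spec.map_comp, ← Spec.map_comp]
  congr 2
  unfold swapHom
  rw [← CommRingCat.ofHom_comp, ← CommRingCat.ofHom_comp]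
  congr 1
  ext <;> simp

lemma famChart'_baseChange {R' : Type u} [CommRing R'] [Algebra k R'] (φ : R →ₐ[k] R') :
    famChart' c A j hj R' ≫ ChartAtlas.baseChangeMap c R' φ =
      Spec.map (CommRingCat.ofHom (Algebra.TensorProduct.map φ (AlgHom.id k A)).toRingHom) ≫
        famChart' c A j hj R := by
  unfold famChart'
  rw [Category.assoc, ← ChartAtlas.chartMap_baseChange c A j hj R' φ, ← Category.assoc,
    ← Category.assoc, ← Spec.map_comp, ← Spec.map_comp]
  congr 2
  unfold swapHom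
  rw [← CommRingCat.ofHom_comp, ← CommRingCat.ofHom_comp]
  congr 1
  ext <;> simp

lemma famChart'_rigSection (e : A →ₐ[k] k)
    (ε : SchemeHomOver (𝟙 (Spec (CommRingCat.of k))) c)
    (hε : ε.1 = Spec.map (CommRingCat.ofHom e.toRingHom) ≫ j) :
    rigSection c (ChartAtlas.baseMap (R := k) R) ε =
      Spec.map (CommRingCat.ofHom
        ((Algebra.TensorProduct.lift (AlgHom.id R R) ((Algebra.ofId k R).comp e)
          (fun _ _ => Commute.all _ _) : R ⊗[k] A →ₐ[R] R) : R ⊗[k] A →+* R)) ≫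
        famChart' c A j hj R := by
  rw [ChartAtlas.rigSection_eq c A j hj R e ε hε]
  unfold famChart'
  rw [← Category.assoc, ← Spec.map_comp]
  congr 2
  unfold swapHom
  rw [← CommRingCat.ofHom_comp]
  congr 1
  ext <;> simp [Algebra.ofId_apply, Algebra.algebraMap_eq_smul_one]

end Fam

end Generic

section Pres

variable {k : Type u} [Field k] {C : Scheme.{u}} {c : C ⟶ Spec (CommRingCat.of k)}
  {ε : SchemeHomOver (𝟙 (Spec (CommRingCat.of k))) c} (pres : Presentation c ε)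
  (R : Type u) [CommRing R] [Algebra k R]

lemma affine₁₂ : IsAffineOpen (pres.U₁ ⊓ pres.U₂) := by
  rw [pres.inter₁]; exact pres.affine₁.basicOpen _

/-- The chart `Spec A₁ ⟶ C`. -/
noncomputable def j₁ : Spec (CommRingCat.of pres.𝒞.A₁) ⟶ C := chartOfOpen pres.affine₁ pres.e₁

/-- The chart `Spec A₂ ⟶ C`. -/
noncomputable def j₂ : Spec (CommRingCat.of pres.𝒞.A₂) ⟶ C := chartOfOpen pres.affine₂ pres.e₂

/-- The chart `Spec A₁₂ ⟶ C`. -/
noncomputable def j₁₂ : Spec (CommRingCat.of pres.𝒞.A₁₂) ⟶ C :=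
  chartOfOpen (affine₁₂ pres) pres.e₁₂

instance : IsOpenImmersion (j₁ pres) := by unfold j₁; infer_instance
instance : IsOpenImmersion (j₂ pres) := by unfold j₂; infer_instance
instance : IsOpenImmersion (j₁₂ pres) := by unfold j₁₂; infer_instance

lemma hj₁ : j₁ pres ≫ c = Spec.map (CommRingCat.ofHom (algebraMap k pres.𝒞.A₁)) :=
  chartOfOpen_comp c _ _ pres.alg₁

lemma hj₂ : j₂ pres ≫ c = Spec.map (CommRingCat.ofHom (algebraMap k pres.𝒞.A₂)) :=
  chartOfOpen_comp c _ _ pres.alg₂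

lemma hj₁₂ : j₁₂ pres ≫ c = Spec.map (CommRingCat.ofHom (algebraMap k pres.𝒞.A₁₂)) :=
  chartOfOpen_comp c _ _ pres.alg₁₂

lemma j₁₂_eq₁ : Spec.map (CommRingCat.ofHom pres.𝒞.r₁.toRingHom) ≫ j₁ pres = j₁₂ pres :=
  chartOfOpen_restrict _ _ inf_le_left _ _ _ pres.res₁

lemma j₁₂_eq₂ : Spec.map (CommRingCat.ofHom pres.𝒞.r₂.toRingHom) ≫ j₂ pres = j₁₂ pres :=
  chartOfOpen_restrict _ _ inf_le_right _ _ _ pres.res₂

lemma range_j₁ : Set.range (j₁ pres) = pres.U₁ := range_chartOfOpen _ _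
lemma range_j₂ : Set.range (j₂ pres) = pres.U₂ := range_chartOfOpen _ _
lemma range_j₁₂ : Set.range (j₁₂ pres) = (pres.U₁ ⊓ pres.U₂ : C.Opens) := range_chartOfOpen _ _

/-- The first chart of the family. -/
noncomputable def Φ₁ : Spec (CommRingCat.of (pres.𝒞.chart R).B₁) ⟶ pullback c (tR k R) :=
  famChart' c pres.𝒞.A₁ (j₁ pres) (hj₁ pres) R

/-- The second chart of the family. -/
noncomputable def Φ₂ : Spec (CommRingCat.of (pres.𝒞.chart R).B₂) ⟶ pullback c (tR k R) :=
  famChart' c pres.𝒞.A₂ (j₂ pres) (hj₂ pres) R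

/-- The intersection chart of the family. -/
noncomputable def Φ₁₂ : Spec (CommRingCat.of (pres.𝒞.chart R).B₁₂) ⟶ pullback c (tR k R) :=
  famChart' c pres.𝒞.A₁₂ (j₁₂ pres) (hj₁₂ pres) R

instance : IsOpenImmersion (Φ₁ pres R) :=
  inferInstanceAs (IsOpenImmersion (famChart' c pres.𝒞.A₁ (j₁ pres) (hj₁ pres) R))
instance : IsOpenImmersion (Φ₂ pres R) :=
  inferInstanceAs (IsOpenImmersion (famChart' c pres.𝒞.A₂ (j₂ pres) (hj₂ pres) R))
instance : IsOpenImmersion (Φ₁₂ pres R) :=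
  inferInstanceAs (IsOpenImmersion (famChart' c pres.𝒞.A₁₂ (j₁₂ pres) (hj₁₂ pres) R))

lemma Φ₁₂_eq₁ : Spec.map (ρ₁ (pres.𝒞.chart R)) ≫ Φ₁ pres R = Φ₁₂ pres R := by
  have h := famChart'_restrict c pres.𝒞.A₁ (j₁ pres) (hj₁ pres) R pres.𝒞.A₁₂ pres.𝒞.r₁
  exact h.symm.trans (famChart'_congr c pres.𝒞.A₁₂ R _ _ (j₁₂_eq₁ pres))

lemma Φ₁₂_eq₂ : Spec.map (ρ₂ (pres.𝒞.chart R)) ≫ Φ₂ pres R = Φ₁₂ pres R := by
  have h := famChart'_restrict c pres.𝒞.A₂ (j₂ pres) (hj₂ pres) R pres.𝒞.A₁₂ pres.𝒞.r₂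
  exact h.symm.trans (famChart'_congr c pres.𝒞.A₁₂ R _ _ (j₁₂_eq₂ pres))

lemma range_Φ₁ : Set.range (Φ₁ pres R) = (pullback.fst c (tR k R)) ⁻¹' pres.U₁ := by
  rw [← range_j₁ pres]
  exact range_famChart' c pres.𝒞.A₁ (j₁ pres) (hj₁ pres) R

lemma range_Φ₂ : Set.range (Φ₂ pres R) = (pullback.fst c (tR k R)) ⁻¹' pres.U₂ := by
  rw [← range_j₂ pres]
  exact range_famChart' c pres.𝒞.A₂ (j₂ pres) (hj₂ pres) R

lemma range_Φ₁₂ : Set.range (Φ₁₂ pres R) =
    (pullback.fst c (tR k R)) ⁻¹' (pres.U₁ ⊓ pres.U₂ : C.Opens) := by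
  rw [← range_j₁₂ pres]
  exact range_famChart' c pres.𝒞.A₁₂ (j₁₂ pres) (hj₁₂ pres) R

/-- **The two-chart atlas of the family `C ×_k Spec R`** attached to a presentation of `C`. -/
noncomputable def famAtlas : Atlas (pullback c (tR k R)) (pres.𝒞.chart R) where
  φ₁ := Φ₁ pres R
  φ₂ := Φ₂ pres R
  isOpenImmersion₁ := inferInstance
  isOpenImmersion₂ := inferInstance
  comm := (Φ₁₂_eq₁ pres R).trans (Φ₁₂_eq₂ pres R).symm
  cover := by
    rw [range_Φ₁, range_Φ₂, ← Set.preimage_union]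
    have h : (pres.U₁ : Set C) ∪ pres.U₂ = Set.univ := by
      have := congrArg (fun U : C.Opens => (U : Set C)) pres.cover
      simpa using this
    rw [h, Set.preimage_univ]
  inter := by
    rw [Φ₁₂_eq₁, range_Φ₁, range_Φ₂, range_Φ₁₂, ← Set.preimage_inter]
    rfl

lemma ε_eq_j₁ : ε.1 = Spec.map (CommRingCat.ofHom pres.𝒞.ε.toRingHom) ≫ j₁ pres := by
  have h := IsAffineOpen.SpecMap_appLE_fromSpec ε.1 pres.affine₁
    (isAffineOpen_top (Spec (CommRingCat.of k))) pres.ε_le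
  rw [IsAffineOpen.fromSpec_top, Scheme.isoSpec_Spec_inv] at h
  have h2 : ε.1 = Spec.map ((Scheme.ΓSpecIso (CommRingCat.of k)).hom) ≫
      Spec.map (Scheme.ΓSpecIso (CommRingCat.of k)).inv ≫ ε.1 := by
    rw [← Category.assoc, ← Spec.map_comp, Iso.inv_hom_id, Spec.map_id, Category.id_comp]
  rw [h2, ← h, j₁, chartOfOpen, ← Category.assoc, ← Category.assoc, ← Spec.map_comp,
    ← Spec.map_comp]
  congr 2
  ext x
  have hx := pres.ε_eq (pres.e₁.symm x)
  rw [pres.e₁.apply_symm_apply] at hx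
  exact hx

lemma famAtlas_bc₁ {R' : Type u} [CommRing R'] [Algebra k R'] (φ : R →ₐ[k] R') :
    (famAtlas pres R').φ₁ ≫ baseChangeSnd c (specHomOver k φ) =
      Spec.map (CommRingCat.ofHom (pres.𝒞.chartHom φ).ψ₁) ≫ (famAtlas pres R).φ₁ := by
  have h := famChart'_baseChange c pres.𝒞.A₁ (j₁ pres) (hj₁ pres) R φ
  rw [ChartAtlas.baseChangeMap_eq_baseChangeSnd c R' φ (specHomOver k φ) rfl] at h
  exact h

lemma famAtlas_bc₂ {R' : Type u} [CommRing R'] [Algebra k R'] (φ : R →ₐ[k] R') :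
    (famAtlas pres R').φ₂ ≫ baseChangeSnd c (specHomOver k φ) =
      Spec.map (CommRingCat.ofHom (pres.𝒞.chartHom φ).ψ₂) ≫ (famAtlas pres R).φ₂ := by
  have h := famChart'_baseChange c pres.𝒞.A₂ (j₂ pres) (hj₂ pres) R φ
  rw [ChartAtlas.baseChangeMap_eq_baseChangeSnd c R' φ (specHomOver k φ) rfl] at h
  exact h

lemma famAtlas_rig : rigSection c (tR k R) ε =
    Spec.map (CommRingCat.ofHom (pres.𝒞.epsR R : (pres.𝒞.chart R).B₁ →+* R)) ≫
      (famAtlas pres R).φ₁ :=
  famChart'_rigSection c pres.𝒞.A₁ (j₁ pres) (hj₁ pres) R pres.𝒞.ε ε (ε_eq_j₁ pres)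

end Pres

end FamAtlas

/-- **Leaf P1** of `DICT/Plan.lean` (exact statement): the family atlas exists. -/
theorem exists_familyAtlas {k : Type u} [Field k] {C : Scheme.{u}}
    (c : C ⟶ Spec (CommRingCat.of k)) (ε : SchemeHomOver (𝟙 (Spec (CommRingCat.of k))) c)
    (pres : Presentation c ε) : Nonempty (FamilyAtlas c ε pres.𝒞) :=
  ⟨{ atlas := fun R _ _ => FamAtlas.famAtlas pres R
     bc₁ := fun φ => FamAtlas.famAtlas_bc₁ pres _ φ
     bc₂ := fun φ => FamAtlas.famAtlas_bc₂ pres _ φ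
     rig := fun R _ _ => FamAtlas.famAtlas_rig pres R }⟩

end Fermat.Agent.S25.DICT.H5771
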